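import Fermat.Agent.S15.GR.Norm.Defs

/-! # S15 / GR / Norm / Cof : the cofactor `N_{F'/F} Z / Z`   (plan: header of `Norm/Defs.lean`, (N6), (N7)) -/

set_option autoImplicit false
set_option linter.unusedSectionVars false

namespace Fermat.Agent.S15.GR

open AlgebraicCurve Fermat.Agent.S26 Fermat.Agent.S37.Red Polynomial IntermediateField

section N6

variable {K : Type*} [Field K] [IsAlgClosed K] [CharZero K]
variable {F F' : Type*} [Field F] [Field F'] [Algebra K F] [Algebra K F']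
variable [Algebra F F'] [IsScalarTower K F F'] [FF1 K F] [FF1 K F'] [Module.Finite F F']

/-- **(N6)**  `intK_of_forall_reg`.  Let `w` be a place of `F'` with `Reg w (ι y)`, `v = w.restrict F`; `Reg v y` (`Place.mem_restrict_iff`).  `S37.FFNorm.exists_fiber_finset_ord_norm y hy v` (instance `finiteDimensional_adjoin_of_transcendental hy`):
`ord_v (N Z) = ∑_{w' ∈ s} ord_{w'} Z`, all terms `≥ 0` (`IntK.reg`, `reg_iff_ord`; `w' ∈ s ↔ w'.restrict F = v`), `w ∈ s`: so `ord_v (N Z) ≥ ord_w Z` (`Finset.single_le_sum`) and `≥ 0`.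
`ord_w (ι (N Z)) = e * ord_v (N Z)` (`Place.ord_restrict`), `e ≥ 1` (`Place.ramificationIndex_pos`).  So `ord_w (ι (N Z) / Z) ≥ 0` (`Place.ord_mul`, `Place.ord_inv`; `N Z ≠ 0` : `Algebra.norm_ne_zero_iff`). -/
theorem intK_cofactor {y : F} (hy : Transcendental K y) {Z : F'}
    (hZ : IntK K (algebraMap F F' y) Z) (hZ0 : Z ≠ 0) :
    IntK K (algebraMap F F' y) (algebraMap F F' (Algebra.norm F Z) / Z) := by
  classical
  have hfd : FiniteDimensional K⟮y⟯ F := finiteDimensional_adjoin_of_transcendental hy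
  have hN0 : Algebra.norm F Z ≠ 0 := Algebra.norm_ne_zero_iff.2 hZ0
  have hιN0 : algebraMap F F' (Algebra.norm F Z) ≠ 0 := (_root_.map_ne_zero _).2 hN0
  refine intK_of_forall_reg fun w hw => ?_
  obtain ⟨s, hs, hord⟩ := S37.FFNorm.exists_fiber_finset_ord_norm y hy (w.restrict F)
    (F' := F')
  have hnn : ∀ w' ∈ s, 0 ≤ w'.ord Z := by
    intro w' hw'
    have h1 : w'.restrict F = w.restrict F := (hs w').1 hw'
    have h2 : Reg w' (algebraMap F F' y) := by
      have h3 : y ∈ (w.restrict F).toValuationSubring := (Place.mem_restrict_iff w).2 hw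
      rw [← h1] at h3
      exact (Place.mem_restrict_iff w').1 h3
    exact (reg_iff_ord w').1 (hZ.reg w' h2)
  have hws : w ∈ s := (hs w).2 rfl
  have h1 : w.ord Z ≤ (w.restrict F).ord (Algebra.norm F Z) := by
    rw [hord Z hZ0]
    exact Finset.single_le_sum hnn hws
  have h0 : 0 ≤ w.ord Z := hnn w hws
  have he : 0 < Place.ramificationIndex (F := F) w := w.ramificationIndex_pos (F := F)
  rw [reg_iff_ord, div_eq_mul_inv, Place.ord_mul w hιN0 (inv_ne_zero hZ0), Place.ord_inv,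
    Place.ord_restrict]
  have he' : (1 : ℤ) ≤ (Place.ramificationIndex (F := F) w : ℤ) := by exact_mod_cast he
  nlinarith

end N6

variable {K k : Type*} [Field K] [Field k] {A : ValuationSubring K} {π : A →+* k}
variable {F Ft F' Ft' : Type*} [Field F] [Field Ft] [Field F'] [Field Ft']
variable [Algebra K F] [Algebra k Ft] [Algebra K F'] [Algebra k Ft']
variable [Algebra F F'] [IsScalarTower K F F'] [Algebra Ft Ft'] [IsScalarTower k Ft Ft']
variable [IsAlgClosed K] [CharZero K] [FF1 K F] [FF1 K F'] [IsAlgClosed k] [FF1 k Ft] [FF1 k Ft']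
variable [Module.Finite F F']
variable {V : VFF A π F Ft} {V' : VFF A π F' Ft'} {y : F} {yt : Ft}

/-- **(N7)**  `C = ι (N Z) / Z`; `V'.Red C (ιt ut / Zt)` (`hVV`, `VFF.Red.div`); `IntK K (ι y) C` (`intK_cofactor`; `Z ≠ 0` by `VFF.Red.ne_zero`; `y` transcendental: `transcendental_of_red`);
`IntA A (ι y) C` (`pc'.sat`); `IntK k (ιt yt) (ιt ut / Zt)` (`IntA.intK_red`), regular at `Q'` (`IntK.reg`); `ιt ut = Zt * (ιt ut / Zt)`, `Van.mul_right`. -/
theorem van_red_norm (hVV : Compat V V') (pc : IsPreChart V y yt)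
    (pc' : IsPreChart V' (algebraMap F F' y) (algebraMap Ft Ft' yt)) {Z : F'} {Zt : Ft'}
    (hZ : IntA A (algebraMap F F' y) Z) (hZt : V'.Red Z Zt) (hZt0 : Zt ≠ 0) {ut : Ft}
    (hut : V.Red (Algebra.norm F Z) ut) {Q' : Place k Ft'}
    (hQ'y : Reg Q' (algebraMap Ft Ft' yt)) (hQ' : Van Q' Zt) :
    Van Q' (algebraMap Ft Ft' ut) := by
  have hZ0 : Z ≠ 0 := hZt.ne_zero hZt0
  have hy : Transcendental K y := transcendental_of_red V pc.red_y pc.trans
  have hC : V'.Red (algebraMap F F' (Algebra.norm F Z) / Z) (algebraMap Ft Ft' ut / Zt) :=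
    (hVV _ _ hut).div hZt hZt0
  have hCK : IntK K (algebraMap F F' y) (algebraMap F F' (Algebra.norm F Z) / Z) :=
    intK_cofactor hy hZ.intK hZ0
  have hCA : IntA A (algebraMap F F' y) (algebraMap F F' (Algebra.norm F Z) / Z) :=
    pc'.sat hCK hC.mem
  have hCt : IntK k (algebraMap Ft Ft' yt) (algebraMap Ft Ft' ut / Zt) :=
    hCA.intK_red V' pc'.red_y hC
  have hreg : Reg Q' (algebraMap Ft Ft' ut / Zt) := hCt.reg Q' hQ'y
  have e : algebraMap Ft Ft' ut = Zt * (algebraMap Ft Ft' ut / Zt) := by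
    rw [mul_div_cancel₀ _ hZt0]
  rw [e]
  exact Van.mul_right Q' hQ' hreg

end Fermat.Agent.S15.GR
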