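import Fermat.Agent.S15.GR.Norm.Int

/-! # S15 / GR / Norm / RedNP : the reduction of `N_{F'/F} Z` has the same norm polynomial as `red Z`   (plan: header of `Norm/Defs.lean`, (N4), (N5)) -/

set_option autoImplicit false
set_option linter.unusedSectionVars false

namespace Fermat.Agent.S15.GR

open AlgebraicCurve Fermat.Agent.S26 Fermat.Agent.S37.Red Polynomial IntermediateField

variable {K k : Type*} [Field K] [Field k] {A : ValuationSubring K} {π : A →+* k}
variable {F Ft F' Ft' : Type*} [Field F] [Field Ft] [Field F'] [Field Ft']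
variable [Algebra K F] [Algebra k Ft] [Algebra K F'] [Algebra k Ft']
variable [Algebra F F'] [IsScalarTower K F F'] [Algebra Ft Ft'] [IsScalarTower k Ft Ft']
variable [IsAlgClosed K] [FF1 K F] [FF1 K F'] [IsAlgClosed k] [FF1 k Ft] [FF1 k Ft']
variable [Module.Finite F F']
variable {V : VFF A π F Ft} {V' : VFF A π F' Ft'} {y : F} {yt : Ft}

/-- **(N4)**  `G` with `IsNP (ι y) Z G` (`exists_norm_eq_aeval`, `IntA.intK`, `transcendental_of_red`); `IsNP y u G` (`isNP_norm`).
`pc'.red_norm hZt` : `V'.Red (aeval (ι y) G) (aeval (ιt yt) Gt)`;  `pc.red_norm hut` : `V.Red (aeval y G) (algebraMap _ Ft (N ut))`; push the latter to `V'` by `hVV`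
(`ι (aeval y G) = aeval (ι y) G` : `aeval_algebraMap_apply`), `VFF.Red.unique`, and `ιt` is injective. -/
theorem isNP_red_norm (hVV : Compat V V') (pc : IsPreChart V y yt)
    (pc' : IsPreChart V' (algebraMap F F' y) (algebraMap Ft Ft' yt)) {Z : F'} {Zt : Ft'}
    (hZ : IntA A (algebraMap F F' y) Z) (hZt : V'.Red Z Zt) {ut : Ft}
    (hut : V.Red (Algebra.norm F Z) ut) {Gt : Polynomial k}
    (hGt : NormPoly.IsNP (algebraMap Ft Ft' yt) Zt Gt) : NormPoly.IsNP yt ut Gt := by
  have hy : Transcendental K y := transcendental_of_red V pc.red_y pc.trans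
  have hy' : Transcendental K (algebraMap F F' y) := transcendental_of_red V' pc'.red_y pc'.trans
  obtain ⟨G, hG⟩ := exists_norm_eq_aeval hy' hZ.intK
  have hG2 : NormPoly.IsNP y (Algebra.norm F Z) G := isNP_norm hy hG
  have h1 := pc'.red_norm hZt
  rw [hG, hGt] at h1
  have h2 := pc.red_norm hut
  rw [hG2] at h2
  have h3 := hVV _ _ h2
  rw [← aeval_algebraMap_apply] at h3
  have h4 := h3.unique h1
  rw [aeval_algebraMap_apply] at h4
  exact (algebraMap Ft Ft').injective h4

/-- **(N5)**  `exists_norm_poly` for `(Ft', ιt yt, Zt)` gives `Gt ≠ 0`; `isNP_red_norm`; if `ut = 0` then `aeval yt Gt = 0` (`Algebra.norm_zero`/`map_zero`; `Ft` is a nontrivial finite `k⟮yt⟯`-module), so `Gt = 0`: contradiction.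
`exists_norm_poly` for `(Ft, yt, ut)` (`intA_norm`, `IntA.intK_red`) + `NormPoly.IsNP.unique`: both sums are `rootMultiplicity c Gt`. -/
theorem sum_ord_red_norm (hVV : Compat V V') (pc : IsPreChart V y yt)
    (pc' : IsPreChart V' (algebraMap F F' y) (algebraMap Ft Ft' yt)) {Z : F'} {Zt : Ft'}
    (hZ : IntA A (algebraMap F F' y) Z) (hZt : V'.Red Z Zt) (hZt0 : Zt ≠ 0) {ut : Ft}
    (hut : V.Red (Algebra.norm F Z) ut) (c : k) :
    ut ≠ 0 ∧ ∑ᶠ (Q : Place k Ft) (_ : Over yt c Q), Q.ord ut =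
      ∑ᶠ (Q' : Place k Ft') (_ : Over (algebraMap Ft Ft' yt) c Q'), Q'.ord Zt := by
  obtain ⟨Gt, hGt0, hGtN, hGt⟩ :=
    exists_norm_poly pc'.trans (hZ.intK_red V' pc'.red_y hZt) hZt0
  have hNP : NormPoly.IsNP yt ut Gt := isNP_red_norm hVV pc pc' hZ hZt hut hGtN
  have hfd : FiniteDimensional k⟮yt⟯ Ft := finiteDimensional_adjoin_of_transcendental pc.trans
  have hut0 : ut ≠ 0 := by
    rintro rfl
    rw [NormPoly.IsNP, Algebra.norm_zero, map_zero] at hNP
    exact hGt0 ((transcendental_iff.mp pc.trans) _ hNP.symm)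
  refine ⟨hut0, ?_⟩
  obtain ⟨G2, -, hG2N, hG2⟩ :=
    exists_norm_poly pc.trans ((intA_norm hZ).intK_red V pc.red_y hut) hut0
  have he : G2 = Gt := NormPoly.IsNP.unique pc.trans hG2N hNP
  rw [← hG2 c, ← hGt c, he]

end Fermat.Agent.S15.GR
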