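import Fermat.Agent.S15.GR.Norm.Above
import Fermat.Agent.S15.GR.Norm.RedNP
import Fermat.Agent.S15.GR.Norm.Cof

/-! # S15 / GR / Norm / Main : `hasUnif_of_above`   (plan: header of `Norm/Defs.lean`, (N8)) -/

set_option autoImplicit false
set_option linter.unusedSectionVars false

namespace Fermat.Agent.S15.GR

open AlgebraicCurve Fermat.Agent.S26 Fermat.Agent.S37.Red Polynomial IntermediateField

/-- (NormMain) a finite sum which has only one non-zero term. -/
theorem NormMain_finsum_eq_single {α : Type*} (p : α → Prop) (f : α → ℤ) {a : α} (ha : p a)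
    (h : ∀ v, p v → v ≠ a → f v = 0) : ∑ᶠ (v : α) (_ : p v), f v = f a := by
  classical
  rw [finsum_eq_single _ a, finsum_eq_if, if_pos ha]
  intro v hv
  rw [finsum_eq_if]
  split_ifs with hp
  · exact h v hp hv
  · rfl

/-- (NormMain) non-negative integers with sum `1`, one of them `≥ 1`. -/
theorem NormMain_count {α : Type*} (p : α → Prop) (f : α → ℤ) (hfin : {v | p v}.Finite)
    (h0 : ∀ v, p v → 0 ≤ f v) (h1 : ∑ᶠ (v : α) (_ : p v), f v = 1) {a : α} (ha : p a)
    (hfa : 1 ≤ f a) : f a = 1 ∧ ∀ v, p v → v ≠ a → f v = 0 := by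
  classical
  have h2 : ∑ v ∈ hfin.toFinset, f v = 1 := by
    rw [← finsum_mem_eq_finite_toFinset_sum f hfin]
    exact h1
  have hmem : ∀ v, v ∈ hfin.toFinset ↔ p v := fun v => by simp
  rw [← Finset.add_sum_erase _ f ((hmem a).2 ha)] at h2
  have h3 : ∀ v ∈ hfin.toFinset.erase a, 0 ≤ f v := fun v hv =>
    h0 v ((hmem v).1 (Finset.mem_of_mem_erase hv))
  have h4 := Finset.sum_nonneg h3
  have h5 : ∑ v ∈ hfin.toFinset.erase a, f v = 0 := by omega
  refine ⟨by omega, fun v hv hne => ?_⟩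
  exact (Finset.sum_eq_zero_iff_of_nonneg h3).1 h5 v (Finset.mem_erase.2 ⟨hne, (hmem v).2 hv⟩)

variable {K k : Type*} [Field K] [Field k] {A : ValuationSubring K} {π : A →+* k}
variable {F Ft F' Ft' : Type*} [Field F] [Field Ft] [Field F'] [Field Ft']
variable [Algebra K F] [Algebra k Ft] [Algebra K F'] [Algebra k Ft']
variable [Algebra F F'] [IsScalarTower K F F'] [Algebra Ft Ft'] [IsScalarTower k Ft Ft']
variable [IsAlgClosed K] [CharZero K] [FF1 K F] [FF1 K F'] [IsAlgClosed k] [FF1 k Ft] [FF1 k Ft']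
variable [Module.Finite F F']
variable {V : VFF A π F Ft} {V' : VFF A π F' Ft'} {y : F} {yt : Ft}

/-- **(T2)**  Assemble (N1)-(N8) of the header of `Norm/Defs.lean`:
`exists_place_above Q`, `over_above`, `hc'.exists_unif`, `u = Algebra.norm F Z`, `intA_norm`, `ut` from `V.exists_red (IntA.mem_O V _ pc.red_y.mem)`, `sum_ord_red_norm` (`pc' = hc'.pre`),
the right-hand sum is `1` (`finsum_mem_eq_finite_toFinset_sum _ (finite_over _ c)`, `Finset.sum_eq_single Q'`), `van_red_norm` + (N1) give `Van Q ut`, so `1 ≤ ord_Q ut` (`ord_pos_of_van`);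
all terms of the left-hand sum are `≥ 0` (`IntA.intK_red`, `IntK.reg`, `reg_iff_ord`).  (A similar counting: `Geo0.finsum_mem_eq_one_aux` in `S19/Geo0/Center.lean`, `IsPreChart.localEq` in `S37/Red/Count.lean`.) -/
theorem hasUnif_of_above (hVV : Compat V V') (pc : IsPreChart V y yt)
    (hc' : IsChart V' (algebraMap F F' y) (algebraMap Ft Ft' yt)) : HasUnif V y yt := by
  intro c Q hQ
  obtain ⟨Q', hQ'⟩ := exists_place_above (𝕃' := Ft') Q
  have hQ'c : Over (algebraMap Ft Ft' yt) c Q' := (over_above hQ').2 hQ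
  obtain ⟨Z, Zt, hZ, hZt, hord1, hord0⟩ := hc'.exists_unif hQ'c
  have hu : IntA A y (Algebra.norm F Z) := intA_norm hZ
  obtain ⟨ut, hut⟩ := V.exists_red (IntA.mem_O V hu pc.red_y.mem)
  have hZt0 : Zt ≠ 0 := Fermat.Agent.S24.FF.ne_zero_of_ord_ne_zero Q' (by rw [hord1]; exact one_ne_zero)
  obtain ⟨hut0, hsum⟩ := sum_ord_red_norm hVV pc hc'.pre hZ hZt hZt0 hut c
  rw [NormMain_finsum_eq_single (fun Q'' => Over (algebraMap Ft Ft' yt) c Q'')
    (fun Q'' => Q''.ord Zt) hQ'c hord0, hord1] at hsum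
  have hvan' : Van Q' (algebraMap Ft Ft' ut) :=
    van_red_norm hVV pc hc'.pre hZ hZt hZt0 hut hQ'c.1 (van_of_ord_pos Q' (by rw [hord1]; exact one_pos))
  have hvan : Van Q ut := (hQ' ut).2.1 hvan'
  have hpos : 0 < Q.ord ut := ord_pos_of_van Q hvan hut0
  have hint : IntK k yt ut := IntA.intK_red V hu pc.red_y hut
  obtain ⟨h1, h2⟩ := NormMain_count (fun Q₁ => Over yt c Q₁) (fun Q₁ => Q₁.ord ut)
    (finite_over pc.trans c) (fun Q₁ hQ₁ => (reg_iff_ord Q₁).1 (hint.reg Q₁ hQ₁.1)) hsum hQ hpos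
  exact ⟨Algebra.norm F Z, ut, hu, hut, h1, h2⟩

end Fermat.Agent.S15.GR
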