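import Fermat.Agent.S15.GR.Norm.Defs

/-! # S15 / GR / Norm / Above : places above a place (any characteristic)   (plan: header of `Norm/Defs.lean`, (N1)) -/

set_option autoImplicit false
set_option linter.unusedSectionVars false

namespace Fermat.Agent.S15.GR

open AlgebraicCurve Fermat.Agent.S26 Fermat.Agent.S37.Red Polynomial IntermediateField

variable {Ω 𝕃 𝕃' : Type*} [Field Ω] [Field 𝕃] [Field 𝕃'] [Algebra Ω 𝕃] [Algebra Ω 𝕃']
variable [Algebra 𝕃 𝕃'] [IsScalarTower Ω 𝕃 𝕃'] [FF1 Ω 𝕃] [FF1 Ω 𝕃']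

/-- **(N1)**  Model: the proof of `S37.Red.IsPreChart.exists_center`.  `R = (Q.toValuationSubring.toSubring).map (algebraMap 𝕃 𝕃')`, `I` = the image of the maximal ideal (e.g. `I = {r | ∃ f, Van Q f ∧ algebraMap f = r}`
as an ideal of `R`; `1 ∉ I` by injectivity of `algebraMap 𝕃 𝕃'`); `Ideal.image_subset_nonunits_valuationSubring I` gives `B ⊇ R` with `I ⊆ B.nonunits`;
`B ≠ ⊤` (there is `f ≠ 0` with `Van Q f`: `S24.FF.exists_ord_eq_one`); `exists_place_of_valuationSubring` gives `Q'`.  So `Reg Q f → Reg Q' (ι f)` and `Van Q f → Van Q' (ι f)`.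
Converses: if `¬ Reg Q f` then `Van Q f⁻¹` (`van_inv_of_not_reg`), so `Van Q' (ι f)⁻¹`, so `¬ Reg Q' (ι f)` (`not_reg_inv_of_van`);
if `Reg Q f`, `¬ Van Q f` then `Reg Q f⁻¹` (`reg_inv_of_not_van`), so `ι f` is a unit at `Q'`. -/
theorem exists_place_above (Q : Place Ω 𝕃) :
    ∃ Q' : Place Ω 𝕃', ∀ f : 𝕃, (Reg Q' (algebraMap 𝕃 𝕃' f) ↔ Reg Q f) ∧
      (Van Q' (algebraMap 𝕃 𝕃' f) ↔ Van Q f) := by
  classical
  have hinj : Function.Injective (algebraMap 𝕃 𝕃') := (algebraMap 𝕃 𝕃').injective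
  set R : Subring 𝕃' := (Q.toValuationSubring.toSubring).map (algebraMap 𝕃 𝕃') with hR
  have hmemR : ∀ f : 𝕃, Reg Q f → algebraMap 𝕃 𝕃' f ∈ R := fun f hf => ⟨f, hf, rfl⟩
  let I : Ideal R :=
    { carrier := {r | ∃ f, Van Q f ∧ algebraMap 𝕃 𝕃' f = (r : 𝕃')}
      add_mem' := by
        rintro a b ⟨f, hf, hfa⟩ ⟨g, hg, hgb⟩
        exact ⟨f + g, hf.add Q hg, by rw [map_add, hfa, hgb]; rfl⟩
      zero_mem' := ⟨0, van_zero Q, by rw [map_zero]; rfl⟩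
      smul_mem' := by
        rintro ⟨c, g, hg, rfl⟩ a ⟨f, hf, hfa⟩
        exact ⟨g * f, Van.mul_left Q hg hf, by rw [map_mul, hfa]; rfl⟩ }
  have hI : I ≠ ⊤ := by
    rw [Ideal.ne_top_iff_one]
    rintro ⟨f, hf, hf1⟩
    have h1 : f = 1 := hinj (by rw [hf1, map_one]; rfl)
    rw [h1] at hf
    exact not_van_one Q hf
  obtain ⟨B, hRB, hIB⟩ := Ideal.image_subset_nonunits_valuationSubring I hI
  have hnon : ∀ f : 𝕃, Van Q f → algebraMap 𝕃 𝕃' f ∈ B.nonunits := by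
    intro f hf
    exact hIB ⟨⟨algebraMap 𝕃 𝕃' f, hmemR f (hf.reg Q)⟩, ⟨f, hf, rfl⟩, rfl⟩
  have hinv : ∀ f : 𝕃', f ≠ 0 → f ∈ B.nonunits → f⁻¹ ∉ B := by
    intro f hf0 hf h2
    rw [ValuationSubring.mem_nonunits_iff] at hf
    rw [← B.valuation_le_one_iff, map_inv₀] at h2
    have h3 : B.valuation f ≠ 0 := (Valuation.ne_zero_iff _).mpr hf0
    exact absurd h2 (not_le.mpr ((one_lt_inv₀ (zero_lt_iff.mpr h3)).mpr hf))
  have hconst : ∀ c : Ω, algebraMap Ω 𝕃' c ∈ B := by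
    intro c
    rw [IsScalarTower.algebraMap_apply Ω 𝕃 𝕃']
    exact hRB (hmemR _ (reg_algebraMap Q c))
  have hBtop : B ≠ ⊤ := by
    intro htop
    obtain ⟨ϖ, hϖ⟩ := Fermat.Agent.S24.FF.exists_ord_eq_one Q
    have hϖ0 : ϖ ≠ 0 := Fermat.Agent.S24.FF.ne_zero_of_ord_ne_zero Q (by rw [hϖ]; exact one_ne_zero)
    have hϖv : Van Q ϖ := van_of_ord_pos Q (by rw [hϖ]; exact one_pos)
    refine hinv _ ((_root_.map_ne_zero (algebraMap 𝕃 𝕃')).2 hϖ0) (hnon ϖ hϖv) ?_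
    rw [htop]
    exact ValuationSubring.mem_top _
  obtain ⟨Q', hQ'⟩ := exists_place_of_valuationSubring B hconst hBtop
  have hreg : ∀ f : 𝕃, Reg Q f → Reg Q' (algebraMap 𝕃 𝕃' f) := by
    intro f hf
    show algebraMap 𝕃 𝕃' f ∈ Q'.toValuationSubring
    rw [hQ']
    exact hRB (hmemR f hf)
  have hvan : ∀ f : 𝕃, Van Q f → Van Q' (algebraMap 𝕃 𝕃' f) := by
    intro f hf
    rcases eq_or_ne f 0 with rfl | hf0
    · rw [map_zero]
      exact van_zero Q'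
    · have h1 : ¬ Reg Q' (algebraMap 𝕃 𝕃' f)⁻¹ := by
        intro h
        refine hinv _ ((_root_.map_ne_zero (algebraMap 𝕃 𝕃')).2 hf0) (hnon f hf) ?_
        rw [← hQ']
        exact h
      have h2 := van_inv_of_not_reg Q' h1
      rwa [inv_inv] at h2
  refine ⟨Q', fun f => ⟨⟨fun h => ?_, hreg f⟩, ⟨fun h => ?_, hvan f⟩⟩⟩
  · by_contra hcon
    have hf0 : f ≠ 0 := by
      rintro rfl
      exact hcon (reg_zero Q)
    have h1 := hvan _ (van_inv_of_not_reg Q hcon)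
    rw [map_inv₀] at h1
    have h2 := not_reg_inv_of_van Q' h1
      (inv_ne_zero ((_root_.map_ne_zero (algebraMap 𝕃 𝕃')).2 hf0))
    rw [inv_inv] at h2
    exact h2 h
  · by_contra hcon
    have hf0 : f ≠ 0 := by
      rintro rfl
      exact hcon (van_zero Q)
    have h1 := hreg _ (reg_inv_of_not_van Q hcon)
    rw [map_inv₀] at h1
    exact not_reg_inv_of_van Q' h ((_root_.map_ne_zero (algebraMap 𝕃 𝕃')).2 hf0) h1

/-- `Q'` lies over the same point of the `x`-line (`over_iff`, `map_sub`, `IsScalarTower.algebraMap_apply`). -/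
theorem over_above {Q : Place Ω 𝕃} {Q' : Place Ω 𝕃'}
    (h : ∀ f : 𝕃, (Reg Q' (algebraMap 𝕃 𝕃' f) ↔ Reg Q f) ∧ (Van Q' (algebraMap 𝕃 𝕃' f) ↔ Van Q f))
    {x : 𝕃} {c : Ω} : Over (algebraMap 𝕃 𝕃' x) c Q' ↔ Over x c Q := by
  have hsub : ∀ d : Ω, algebraMap 𝕃 𝕃' x - algebraMap Ω 𝕃' d =
      algebraMap 𝕃 𝕃' (x - algebraMap Ω 𝕃 d) := by
    intro d
    rw [map_sub, ← IsScalarTower.algebraMap_apply Ω 𝕃 𝕃']
  have hval : Fermat.Agent.S37.Red.val Q' (algebraMap 𝕃 𝕃' x) = Fermat.Agent.S37.Red.val Q x := by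
    by_cases hex : ∃ d : Ω, Van Q (x - algebraMap Ω 𝕃 d)
    · obtain ⟨d, hd⟩ := hex
      rw [val_eq_of_van Q hd]
      refine val_eq_of_van Q' ?_
      rw [hsub]
      exact (h _).2.2 hd
    · have hex' : ¬ ∃ d : Ω, Van Q' (algebraMap 𝕃 𝕃' x - algebraMap Ω 𝕃' d) := by
        rintro ⟨d, hd⟩
        rw [hsub] at hd
        exact hex ⟨d, (h _).2.1 hd⟩
      rw [Fermat.Agent.S37.Red.val, Fermat.Agent.S37.Red.val, dif_neg hex, dif_neg hex']
  rw [Over, Over, (h x).1, hval]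

end Fermat.Agent.S15.GR
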