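import Fermat.Agent.S15.GR.Unif.Defs
import Fermat.Agent.S37.FFNorm.Main

/-!
# S15 / GR / Norm : descent of local parameters along a finite extension by NORMS      (T2)

Setting.  `F ⊆ F'` a finite extension of function fields over `K` (alg. closed, char. 0), `Ft ⊆ Ft'` function fields over `k` (alg. closed, ANY characteristic; `Ft'/Ft` may be inseparable a priori),
`V : VFF A π F Ft`, `V' : VFF A π F' Ft'` compatible (`Compat V V'`), `ι = algebraMap F F'`, `ιt = algebraMap Ft Ft'`, `y ∈ F`.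

**Theorem** `hasUnif_of_above` : `IsPreChart V y yt` + `IsChart V' (ι y) (ιt yt)` ⇒ `HasUnif V y yt`.

Proof.  `Q | c` a place of `Ft`.
(N1) there is a place `Q'` of `Ft'` above `Q` (Chevalley).  `Q' | c`.  `IsChart.exists_unif` at `Q'`: `Z ∈ B'_A(ι y)`, `Zt = red Z`, `ord_{Q'} Zt = 1`, `ord = 0` at the other places of `Ft'` over `c`.  Put `u = N_{F'/F} Z`.
(N2) `u ∈ B_A(y)` (`Algebra.isIntegral_norm`); `ut := red u`.
(N3) `N_{F/K(y)} u = N_{F'/K(ι y)} Z` (`Algebra.norm_norm`), in the form `IsNP (ι y) Z G → IsNP y u G`.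
(N4) `IsPreChart.red_norm` on both levels + `Compat`: `IsNP (ιt yt) Zt Gt → IsNP yt ut Gt`.
(N5) so `ut ≠ 0` and, by `exists_norm_poly` (any characteristic) on both levels, `∑_{Q₁ | c} ord_{Q₁} ut = ∑_{Q₁' | c} ord_{Q₁'} Zt = 1`.
(N6) the cofactor `C = ι u / Z` is regular wherever `ι y` is: `ord_w (ι u) = e(w|v) ∑_{w' | v} ord_{w'} Z ≥ ord_w Z` (char. 0 norm formula `S37.FFNorm.exists_fiber_finset_ord_norm`).
(N7) `C ∈ O'` (`Red.div`), so `C ∈ B'_A(ι y)` (`IsPreChart.sat`), `red C = ιt ut / Zt` is regular at `Q'`; so `ιt ut = Zt * red C` vanishes at `Q'`, i.e. `ut` vanishes at `Q`.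
(N8) all `ord_{Q₁} ut ≥ 0`, their sum is `1`, `ord_Q ut ≥ 1`: done.
-/

set_option autoImplicit false
set_option linter.unusedSectionVars false

namespace Fermat.Agent.S15.GR

open AlgebraicCurve Fermat.Agent.S26 Fermat.Agent.S37.Red Polynomial IntermediateField

variable {K k : Type*} [Field K] [Field k] {A : ValuationSubring K} {π : A →+* k}
variable {F Ft F' Ft' : Type*} [Field F] [Field Ft] [Field F'] [Field Ft']
variable [Algebra K F] [Algebra k Ft] [Algebra K F'] [Algebra k Ft']
variable [Algebra F F'] [Algebra Ft Ft']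

/-- the two valued function fields are compatible. -/
def Compat (V : VFF A π F Ft) (V' : VFF A π F' Ft') : Prop :=
  ∀ (f : F) (ft : Ft), V.Red f ft → V'.Red (algebraMap F F' f) (algebraMap Ft Ft' ft)

end Fermat.Agent.S15.GR
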