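import Fermat.Agent.S15.GR.Norm.Defs

/-! # S15 / GR / Norm / Int : the norm of an integral element; transitivity of the norm   (plan: header of `Norm/Defs.lean`, (N2), (N3)) -/

set_option autoImplicit false
set_option linter.unusedSectionVars false

namespace Fermat.Agent.S15.GR

open AlgebraicCurve Fermat.Agent.S26 Fermat.Agent.S37.Red Polynomial IntermediateField

section A

variable {K : Type*} [Field K] {A : ValuationSubring K}
variable {F F' : Type*} [Field F] [Field F'] [Algebra K F] [Algebra K F']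
variable [Algebra F F'] [IsScalarTower K F F']

/-- `evA A (ι y) = ι ∘ evA A y`   (`Polynomial.ringHom_ext` or `aeval_algebraMap_apply`). -/
theorem evA_algebraMap (y : F) :
    evA A (algebraMap F F' y) = (algebraMap F F').comp (evA A y) := by
  refine RingHom.ext fun q => ?_
  rw [RingHom.comp_apply, evA_apply, evA_apply, aeval_algebraMap_apply]

/-- **(N2)**  `Algebra.isIntegral_norm` for `R = Polynomial A` acting on `F` through `evA A y` (`(evA A y).toAlgebra`) and on `F'` through `evA A (ι y)`; scalar tower by `evA_algebraMap`.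
(`IntA A y b` is by definition `(evA A y).IsIntegralElem b`, which is `IsIntegral R b` for this algebra structure.) -/
theorem intA_norm [Module.Finite F F'] {y : F} {Z : F'} (hZ : IntA A (algebraMap F F' y) Z) :
    IntA A y (Algebra.norm F Z) := by
  let _ : Algebra (Polynomial A) F := (evA A y).toAlgebra
  let _ : Algebra (Polynomial A) F' := (evA A (algebraMap F F' y)).toAlgebra
  have : IsScalarTower (Polynomial A) F F' := IsScalarTower.of_algebraMap_eq' (evA_algebraMap y)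
  have h1 : IsIntegral (Polynomial A) Z := hZ
  exact Algebra.isIntegral_norm F h1

end A

section NP

variable {Ω 𝕃 𝕃' : Type*} [Field Ω] [Field 𝕃] [Field 𝕃'] [Algebra Ω 𝕃] [Algebra Ω 𝕃']
variable [Algebra 𝕃 𝕃'] [IsScalarTower Ω 𝕃 𝕃'] [FF1 Ω 𝕃] [Module.Finite 𝕃 𝕃']

/-- **(N3)**  `E = Ω⟮x⟯`, `E' = Ω⟮ι x⟯`.  Make `𝕃'` an `E`-algebra through `𝕃` (`((algebraMap 𝕃 𝕃').comp (algebraMap E 𝕃)).toAlgebra`, scalar tower `E 𝕃 𝕃'`): `Algebra.norm_norm` gives `N_{𝕃/E} (N_{𝕃'/𝕃} g) = N_{𝕃'/E} g`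
(`𝕃/E` is finite: `finiteDimensional_adjoin_of_transcendental hx`).  `ι` restricts to a ring isomorphism `e : E ≃+* E'` (`IntermediateField.adjoin_map`, `IntermediateField.equivMap`/`AlgEquiv.ofInjectiveField`, …) with `algebraMap E' 𝕃' ∘ e = algebraMap E 𝕃'`;
`Algebra.norm_eq_of_ringEquiv e` gives `e (N_{𝕃'/E} g) = N_{𝕃'/E'} g`.  Apply `ι` to the claim (injective), `ι (aeval x G) = aeval (ι x) G`. -/
theorem isNP_norm {x : 𝕃} (hx : Transcendental Ω x) {g : 𝕃'} {G : Polynomial Ω}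
    (h : NormPoly.IsNP (algebraMap 𝕃 𝕃' x) g G) : NormPoly.IsNP x (Algebra.norm 𝕃 g) G := by
  have hfd : FiniteDimensional Ω⟮x⟯ 𝕃 := finiteDimensional_adjoin_of_transcendental hx
  have hmap : (Ω⟮x⟯).map (IsScalarTower.toAlgHom Ω 𝕃 𝕃') = Ω⟮algebraMap 𝕃 𝕃' x⟯ := by
    rw [IntermediateField.adjoin_map, Set.image_singleton]
    rfl
  let e : Ω⟮x⟯ ≃ₐ[Ω] Ω⟮algebraMap 𝕃 𝕃' x⟯ :=
    ((Ω⟮x⟯).equivMap (IsScalarTower.toAlgHom Ω 𝕃 𝕃')).trans (IntermediateField.equivOfEq hmap)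
  have he : (algebraMap Ω⟮algebraMap 𝕃 𝕃' x⟯ 𝕃').comp (e : Ω⟮x⟯ ≃+* Ω⟮algebraMap 𝕃 𝕃' x⟯)
      = algebraMap Ω⟮x⟯ 𝕃' := by
    refine RingHom.ext fun z => ?_
    rfl
  have h1 := Algebra.norm_eq_of_ringEquiv (e : Ω⟮x⟯ ≃+* Ω⟮algebraMap 𝕃 𝕃' x⟯) he g
  have h2 : Algebra.norm Ω⟮x⟯ (Algebra.norm 𝕃 g) = Algebra.norm Ω⟮x⟯ g := Algebra.norm_norm
  unfold NormPoly.IsNP at h ⊢
  apply (algebraMap 𝕃 𝕃').injective
  rw [← aeval_algebraMap_apply, ← h, ← h1, h2]
  rfl

end NP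

end Fermat.Agent.S15.GR
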